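import Mathlib
import Fermat.Agent.S54.ValRing
import Fermat.Agent.S56.Defs

/-!
# S56 / local engine at `q ≠ p` (helper554): finite levels are discretely valued

`P` a valuation subring of `ℚ̄` over the prime `q`, `L ⊆ ℚ̄` a finite extension of `ℚ`.

* `primeAt P L` : the prime of `𝓞 L` below `P`, as a `HeightOneSpectrum`;
* `valuation_le_one_of_primeAt`, `valuation_eq_one_of_primeAt` : the `primeAt`-adic valuation
  controls `P.valuation` on `L`;
* `exists_uniformizer` : there is `ϖ ∈ L`, `ϖ ≠ 0`, with `v_P(c) ∈ v_P(ϖ)^ℤ` for all `c ∈ Lˣ`,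
  and `v_P(ϖ) < 1`;
* `exists_int_approx` : every element of `L ∩ P` is congruent mod `𝔪_P` to an element of `𝓞 L`.
-/

set_option autoImplicit false

open IsDedekindDomain NumberField

namespace Fermat.Agent.S56.H554

variable (P : ValuationSubring Qb) (L : IntermediateField ℚ Qb)

/-- A finite subextension of `ℚ̄/ℚ` is a number field. -/
theorem numberField_level [FiniteDimensional ℚ L] : NumberField L :=
  { to_charZero := inferInstance, to_finiteDimensional := inferInstance }

attribute [local instance] numberField_level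

theorem int_mem [FiniteDimensional ℚ L] (x : 𝓞 L) : (((x : L) : Qb)) ∈ P :=
  Fermat.Agent.S54.isIntegral_mem_valuationSubring P
    (map_isIntegral_int (algebraMap L Qb) (RingOfIntegers.isIntegral_coe x))

theorem int_val_le [FiniteDimensional ℚ L] (x : 𝓞 L) : P.valuation (((x : L) : Qb)) ≤ 1 :=
  (P.valuation_le_one_iff _).mpr (int_mem P L x)

/-- The prime ideal of `𝓞 L` below `P`. -/
def idealAt [FiniteDimensional ℚ L] : Ideal (𝓞 L) where
  carrier := {x | P.valuation (((x : L) : Qb)) < 1}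
  add_mem' := by
    intro a b ha hb
    simp only [Set.mem_ofPred_eq] at ha hb ⊢
    have : (((a + b : 𝓞 L) : L) : Qb) = ((a : L) : Qb) + ((b : L) : Qb) := by
      push_cast; rfl
    rw [this]
    exact lt_of_le_of_lt (P.valuation.map_add _ _) (max_lt ha hb)
  zero_mem' := by
    simp only [Set.mem_ofPred_eq]
    have : (((0 : 𝓞 L) : L) : Qb) = 0 := by push_cast; rfl
    rw [this, map_zero]
    exact zero_lt_one
  smul_mem' := by
    intro c x hx
    simp only [Set.mem_ofPred_eq, smul_eq_mul] at hx ⊢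
    have : (((c * x : 𝓞 L) : L) : Qb) = ((c : L) : Qb) * ((x : L) : Qb) := by
      push_cast; rfl
    rw [this, map_mul]
    exact mul_lt_one_of_nonneg_of_lt_one_right (int_val_le P L c) zero_le hx

theorem mem_idealAt [FiniteDimensional ℚ L] (x : 𝓞 L) :
    x ∈ idealAt P L ↔ P.valuation (((x : L) : Qb)) < 1 := Iff.rfl

theorem idealAt_isPrime [FiniteDimensional ℚ L] : (idealAt P L).IsPrime := by
  refine ⟨?_, ?_⟩
  · intro h
    have h1 : (1 : 𝓞 L) ∈ idealAt P L := by rw [h]; trivial
    rw [mem_idealAt] at h1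
    have : (((1 : 𝓞 L) : L) : Qb) = 1 := by push_cast; rfl
    rw [this, map_one] at h1
    exact lt_irrefl _ h1
  · intro x y hxy
    rw [mem_idealAt] at hxy
    have : (((x * y : 𝓞 L) : L) : Qb) = ((x : L) : Qb) * ((y : L) : Qb) := by
      push_cast; rfl
    rw [this, map_mul] at hxy
    by_contra hcon
    push Not at hcon
    have hx : P.valuation (((x : L) : Qb)) = 1 :=
      le_antisymm (int_val_le P L x) (not_lt.mp hcon.1)
    have hy : P.valuation (((y : L) : Qb)) = 1 :=
      le_antisymm (int_val_le P L y) (not_lt.mp hcon.2)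
    rw [hx, hy, one_mul] at hxy
    exact lt_irrefl _ hxy

variable {P} in
theorem natCast_mem_idealAt [FiniteDimensional ℚ L] {q : ℕ} (hP : P.LiesOverPrime q) :
    (q : 𝓞 L) ∈ idealAt P L := by
  rw [mem_idealAt]
  have : (((q : 𝓞 L) : L) : Qb) = (q : Qb) := by push_cast; rfl
  rw [this]
  exact P.mem_nonunits_iff.mp hP

variable {P} in
/-- The prime of `𝓞 L` below `P`. -/
noncomputable def primeAt [FiniteDimensional ℚ L] {q : ℕ} (hq : q.Prime)
    (hP : P.LiesOverPrime q) : HeightOneSpectrum (𝓞 L) where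
  asIdeal := idealAt P L
  isPrime := idealAt_isPrime P L
  ne_bot := by
    intro h
    have h1 := natCast_mem_idealAt L hP
    rw [h, Ideal.mem_bot] at h1
    exact hq.ne_zero (by exact_mod_cast h1)

variable {P} {L}
variable [FiniteDimensional ℚ L] {q : ℕ}

section
variable (hq : q.Prime) (hP : P.LiesOverPrime q)

theorem val_eq_one_of_notMem {d : 𝓞 L} (hd : d ∉ (primeAt L hq hP).asIdeal) :
    P.valuation (((d : L) : Qb)) = 1 :=
  le_antisymm (int_val_le P L d) (not_lt.mp hd)

/-- Dictionary: `primeAt`-integral elements of `L` lie in `P`. -/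
theorem valuation_le_one_of_primeAt {x : L}
    (hx : (primeAt L hq hP).valuation L x ≤ 1) : P.valuation (x : Qb) ≤ 1 := by
  obtain ⟨n, d, hnd⟩ := (primeAt L hq hP).exists_primeCompl_mul_eq_of_integer x hx
  have hd := val_eq_one_of_notMem hq hP d.2
  have h1 : (x : Qb) * (((d : 𝓞 L) : L) : Qb) = ((n : L) : Qb) := by
    have := congrArg (fun t : L => (t : Qb)) hnd
    simpa using this
  have h2 := congrArg P.valuation h1
  rw [map_mul, hd, mul_one] at h2
  rw [h2]
  exact int_val_le P L n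

/-- Dictionary: `primeAt`-units of `L` are units of `P`. -/
theorem valuation_eq_one_of_primeAt {x : L}
    (hx : (primeAt L hq hP).valuation L x = 1) : P.valuation (x : Qb) = 1 := by
  have hx0 : x ≠ 0 := by
    rintro rfl
    simp at hx
  have hx0' : (x : Qb) ≠ 0 := by
    intro h
    exact hx0 (by exact_mod_cast h)
  have h1 := valuation_le_one_of_primeAt hq hP hx.le
  have h2 : P.valuation ((x⁻¹ : L) : Qb) ≤ 1 := by
    apply valuation_le_one_of_primeAt hq hP
    rw [map_inv₀, hx, inv_one]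
  have h3 : ((x⁻¹ : L) : Qb) = (x : Qb)⁻¹ := by push_cast; rfl
  rw [h3, map_inv₀] at h2
  refine le_antisymm h1 ?_
  have hv0 : P.valuation (x : Qb) ≠ 0 := (Valuation.ne_zero_iff _).mpr hx0'
  exact (inv_le_one₀ (lt_of_le_of_ne zero_le (Ne.symm hv0))).mp h2

end

/-- **Discreteness at finite level.** -/
theorem exists_uniformizer (hq : q.Prime) (hP : P.LiesOverPrime q) :
    ∃ ϖ : L, ϖ ≠ 0 ∧ P.valuation (ϖ : Qb) < 1 ∧
      ∀ c : L, c ≠ 0 → ∃ n : ℤ, P.valuation (c : Qb) = P.valuation (ϖ : Qb) ^ n := by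
  obtain ⟨π, hπ⟩ := (primeAt L hq hP).valuation_exists_uniformizer' L
  set ϖ : L := algebraMap (𝓞 L) L π with hϖ
  have hϖv : (primeAt L hq hP).valuation L ϖ = WithZero.exp (-1 : ℤ) := hπ
  have hϖ0 : ϖ ≠ 0 := by
    have h1 : (primeAt L hq hP).valuation L ϖ ≠ 0 := by
      rw [hϖv]
      exact WithZero.exp_ne_zero
    exact (Valuation.ne_zero_iff _).mp h1
  have hπmem : π ∈ (primeAt L hq hP).asIdeal := by
    rw [← (primeAt L hq hP).valuation_lt_one_iff_mem (K := L)]
    change (primeAt L hq hP).valuation L ϖ < 1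
    rw [hϖv, ← WithZero.exp_zero]
    exact WithZero.exp_lt_exp.mpr (by norm_num)
  have hϖlt : P.valuation (ϖ : Qb) < 1 := hπmem
  refine ⟨ϖ, hϖ0, hϖlt, fun c hc => ?_⟩
  have hc0 : (primeAt L hq hP).valuation L c ≠ 0 := (Valuation.ne_zero_iff _).mpr hc
  obtain ⟨m, hm⟩ : ∃ m : ℤ, (primeAt L hq hP).valuation L c = WithZero.exp m :=
    ⟨WithZero.log ((primeAt L hq hP).valuation L c), (WithZero.exp_log hc0).symm⟩
  have h1 : (primeAt L hq hP).valuation L (c * ϖ ^ m) = 1 := by
    rw [map_mul, map_zpow₀, hm, hϖv, ← WithZero.exp_zsmul, ← WithZero.exp_add]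
    simp
  have h2 := valuation_eq_one_of_primeAt hq hP h1
  have h3 : ((c * ϖ ^ m : L) : Qb) = (c : Qb) * (ϖ : Qb) ^ m := by
    push_cast; rfl
  rw [h3, map_mul, map_zpow₀] at h2
  refine ⟨-m, ?_⟩
  rw [zpow_neg]
  exact eq_inv_of_mul_eq_one_left h2

end Fermat.Agent.S56.H554
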