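import Mathlib
import Fermat.Agent.A2.H708.Tame

/-!
# S56 / local engine at `q ≠ p` (helper554): wild elements of inertia act through order prime to `p`

`L/K` algebraic, `A` a valuation subring of `L`, `τ` in the inertia group of `A`.
`τ` is *wild on* a set `E ⊆ L` if `v (τ c - c) < v c` for all nonzero `c ∈ E`
(equivalently the tame character `tameHom A hτ` of `A2/H708/Tame.lean` is trivial on `E`).

* `IsWildOn.pow` : powers of wild elements of the decomposition group are wild.
* `fixes_of_pow_fixes` : if `τ` is wild on a `τ`-stable intermediate field `E`, `τ ^ n` fixes `E`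
  pointwise and `n` is a unit of `A`, then `τ` fixes `E` pointwise.  (Norm argument:
  `∏_{j<n} τ^j (τ x / x) = 1`; no ramification theory, no discreteness.)
* `map_eq_one_of_wild` : a group hom `f` on `Gal(L/K)`, trivial on the fixing subgroup of a
  finite-dimensional `τ`-stable `E`, kills a wild `τ` as soon as `f τ ^ p ^ k = 1` with `p` prime
  and a unit of `A`.
-/

set_option autoImplicit false

namespace Fermat.Agent.S56.H554

open Fermat.Agent.A2.H708

variable {K L : Type*} [Field K] [Field L] [Algebra K L] (A : ValuationSubring L)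

/-- `τ` is wild on `E`: it moves every nonzero `c ∈ E` by something of smaller valuation. -/
def IsWildOn (τ : L ≃ₐ[K] L) (E : Set L) : Prop :=
  ∀ c ∈ E, c ≠ 0 → A.valuation (τ c - c) < A.valuation c

variable {A}

theorem pow_succ_apply' (τ : L ≃ₐ[K] L) (j : ℕ) (x : L) : (τ ^ (j + 1)) x = τ ((τ ^ j) x) := by
  rw [pow_succ']
  rfl

theorem pow_succ_apply (τ : L ≃ₐ[K] L) (j : ℕ) (x : L) : (τ ^ (j + 1)) x = (τ ^ j) (τ x) := by
  rw [pow_succ]
  rfl

theorem IsWildOn.pow [Algebra.IsAlgebraic K L] {τ : L ≃ₐ[K] L}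
    (hτ : τ ∈ A.decompositionSubgroup K) {E : Set L} (h : IsWildOn A τ E) (j : ℕ) :
    IsWildOn A (τ ^ j) E := by
  intro c hc hc0
  have hpos : 0 < A.valuation c := pos_iff_ne_zero.mpr ((Valuation.ne_zero_iff _).mpr hc0)
  induction j with
  | zero =>
    have : (τ ^ 0) c - c = 0 := by
      rw [pow_zero]
      show c - c = 0
      exact sub_self c
    rw [this, map_zero]
    exact hpos
  | succ j ih =>
    have h1 : (τ ^ (j + 1)) c - c = τ ((τ ^ j) c - c) + (τ c - c) := by
      rw [pow_succ_apply', map_sub]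
      ring
    rw [h1]
    refine lt_of_le_of_lt (A.valuation.map_add _ _) (max_lt ?_ (h c hc hc0))
    rw [valuation_apply_of_mem_decomposition A hτ]
    exact ih

/-- Expansion of `∏ (1 + a * b i)` to first order in `a`, with remainder in `A`. -/
theorem exists_prod_one_add_mul {ι : Type*} (s : Finset ι) (a : L) (ha : a ∈ A) (b : ι → L)
    (hb : ∀ i ∈ s, b i ∈ A) :
    ∃ t ∈ A, ∏ i ∈ s, (1 + a * b i) = 1 + a * ∑ i ∈ s, b i + a ^ 2 * t := by
  classical
  induction s using Finset.induction_on with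
  | empty => exact ⟨0, A.zero_mem, by simp⟩
  | insert i s hi ih =>
    obtain ⟨t, ht, hprod⟩ := ih (fun j hj => hb j (Finset.mem_insert_of_mem hj))
    have hbi : b i ∈ A := hb i (Finset.mem_insert_self i s)
    have hsum : ∑ j ∈ s, b j ∈ A :=
      A.toSubring.sum_mem (fun j hj => hb j (Finset.mem_insert_of_mem hj))
    refine ⟨t + b i * ∑ j ∈ s, b j + a * b i * t, ?_, ?_⟩
    · exact A.add_mem _ _ (A.add_mem _ _ ht (A.mul_mem _ _ hbi hsum))
        (A.mul_mem _ _ (A.mul_mem _ _ ha hbi) ht)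
    · rw [Finset.prod_insert hi, Finset.sum_insert hi, hprod]
      ring

/-- Telescoping: `∏_{j<n} τ^j (τ x / x) = τ^n x / x`. -/
theorem prod_pow_apply_ratio (τ : L ≃ₐ[K] L) {x : L} (hx : x ≠ 0) (n : ℕ) :
    ∏ j ∈ Finset.range n, (τ ^ j) (τ x / x) = (τ ^ n) x / x := by
  induction n with
  | zero =>
    rw [Finset.range_zero, Finset.prod_empty, pow_zero]
    show 1 = x / x
    rw [div_self hx]
  | succ n ih =>
    rw [Finset.prod_range_succ, ih, map_div₀, ← pow_succ_apply]
    have h0 : (τ ^ n) x ≠ 0 := fun h =>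
      hx ((map_eq_zero_iff (τ ^ n) (τ ^ n).injective).mp h)
    field_simp

/-- **Wild lemma.** If `τ` (in the inertia group) is wild on the `τ`-stable intermediate field
`E`, `τ ^ n` fixes `E` pointwise and `n` is a unit of `A`, then `τ` fixes `E` pointwise. -/
theorem fixes_of_pow_fixes [Algebra.IsAlgebraic K L] {τ : L ≃ₐ[K] L}
    (hτ : τ ∈ A.inertiaSubgroupIn K) (E : IntermediateField K L)
    (hstab : ∀ x ∈ E, τ x ∈ E) (hwild : IsWildOn A τ (E : Set L))
    (n : ℕ) (hn : A.valuation (n : L) = 1) (hfix : ∀ x ∈ E, (τ ^ n) x = x) :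
    ∀ x ∈ E, τ x = x := by
  have hD : τ ∈ A.decompositionSubgroup K := mem_decomposition_of_mem_inertiaIn A hτ
  intro x hxE
  by_contra hne
  have hx0 : x ≠ 0 := by
    rintro rfl
    exact hne (map_zero τ)
  -- the element `a = τ x / x - 1`
  set a : L := τ x / x - 1 with ha
  have haE : a ∈ E := E.sub_mem (E.div_mem (hstab x hxE) hxE) E.one_mem
  have ha0 : a ≠ 0 := by
    intro h0
    apply hne
    have h1 : τ x / x = 1 := by
      rw [ha] at h0
      exact sub_eq_zero.mp h0
    rwa [div_eq_one_iff_eq hx0] at h1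
  have hax : a = (τ x - x) / x := by
    rw [ha]
    field_simp
  have hva : A.valuation a < 1 := by
    rw [hax, map_div₀,
      div_lt_one₀ (pos_iff_ne_zero.mpr ((Valuation.ne_zero_iff _).mpr hx0))]
    exact hwild x hxE hx0
  have haA : a ∈ A := (A.valuation_le_one_iff a).mp hva.le
  -- the conjugates of `a`
  set m : ℕ → L := fun j => ((τ ^ j) a - a) / a with hm
  have hmv : ∀ j, A.valuation (m j) < 1 := by
    intro j
    rw [hm]
    show A.valuation (((τ ^ j) a - a) / a) < 1
    rw [map_div₀, div_lt_one₀ (pos_iff_ne_zero.mpr ((Valuation.ne_zero_iff _).mpr ha0))]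
    exact (hwild.pow hD j) a haE ha0
  have hconj : ∀ j, (τ ^ j) (τ x / x) = 1 + a * (1 + m j) := by
    intro j
    have h1 : τ x / x = 1 + a := by rw [ha]; ring
    rw [h1, map_add, map_one, hm]
    show 1 + (τ ^ j) a = 1 + a * (1 + ((τ ^ j) a - a) / a)
    field_simp
    ring
  have hprod : ∏ j ∈ Finset.range n, (1 + a * (1 + m j)) = 1 := by
    have h1 := prod_pow_apply_ratio τ hx0 n
    rw [hfix x hxE, div_self hx0] at h1
    exact (Finset.prod_congr rfl fun j _ => (hconj j).symm).trans h1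
  obtain ⟨t, ht, hexp⟩ := exists_prod_one_add_mul (A := A) (Finset.range n) a haA
    (fun j => 1 + m j)
    (fun j _ => A.add_mem _ _ A.one_mem ((A.valuation_le_one_iff _).mp (hmv j).le))
  rw [hprod] at hexp
  -- `n + ∑ m j + a t = 0`
  have hsum : ∑ j ∈ Finset.range n, (1 + m j) = (n : L) + ∑ j ∈ Finset.range n, m j := by
    rw [Finset.sum_add_distrib, Finset.sum_const, Finset.card_range, nsmul_eq_mul, mul_one]
  have hzero : (n : L) + (∑ j ∈ Finset.range n, m j + a * t) = 0 := by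
    have h2 : a * ((n : L) + (∑ j ∈ Finset.range n, m j + a * t)) = 0 := by
      have h3 : (1 : L) = 1 + a * ((n : L) + ∑ j ∈ Finset.range n, m j) + a ^ 2 * t := by
        rw [← hsum]
        exact hexp
      linear_combination -h3
    exact (mul_eq_zero.mp h2).resolve_left ha0
  have hlt : A.valuation (∑ j ∈ Finset.range n, m j + a * t) < 1 := by
    refine lt_of_le_of_lt (A.valuation.map_add _ _) (max_lt ?_ ?_)
    · exact A.valuation.map_sum_lt (zero_ne_one' _).symm fun j _ => hmv j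
    · rw [map_mul]
      exact mul_lt_one_of_nonneg_of_lt_one_left zero_le hva
        ((A.valuation_le_one_iff t).mpr ht)
  have hn' : (n : L) = -(∑ j ∈ Finset.range n, m j + a * t) := eq_neg_of_add_eq_zero_left hzero
  rw [hn', Valuation.map_neg] at hn
  exact absurd hn hlt.ne

/-- Some positive power of `τ` fixes a finite-dimensional intermediate field pointwise. -/
theorem exists_pow_fixes (τ : L ≃ₐ[K] L) (E : IntermediateField K L) [FiniteDimensional K E] :
    ∃ N : ℕ, 0 < N ∧ ∀ x ∈ E, (τ ^ N) x = x := by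
  have : Finite (E →ₐ[K] L) := Finite.of_fintype _
  let g : ℕ → (E →ₐ[K] L) := fun n => ((τ ^ n : L ≃ₐ[K] L) : L →ₐ[K] L).comp E.val
  obtain ⟨a, b, hab, h⟩ := Finite.exists_ne_map_eq_of_infinite g
  wlog hlt : a < b generalizing a b
  · exact this b a hab.symm h.symm (lt_of_le_of_ne (not_lt.mp hlt) hab.symm)
  refine ⟨b - a, Nat.sub_pos_of_lt hlt, fun x hx => ?_⟩
  have h1 : (τ ^ a) x = (τ ^ b) x := congrArg (fun φ : E →ₐ[K] L => φ ⟨x, hx⟩) h
  have hb : b = a + (b - a) := by omega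
  have h2 : (τ ^ b) x = (τ ^ a) ((τ ^ (b - a)) x) := by
    conv_lhs => rw [hb, pow_add]
    rfl
  rw [h2] at h1
  exact ((τ ^ a).injective h1).symm

theorem pow_mul_apply (τ : L ≃ₐ[K] L) (a b : ℕ) (x : L) :
    ((τ ^ a) ^ b) x = (τ ^ (a * b)) x := by
  rw [pow_mul]

theorem pow_apply_mem (τ : L ≃ₐ[K] L) (E : IntermediateField K L) (hstab : ∀ x ∈ E, τ x ∈ E)
    (j : ℕ) : ∀ x ∈ E, (τ ^ j) x ∈ E := by
  induction j with
  | zero => intro x hx; rw [pow_zero]; exact hx
  | succ j ih => intro x hx; rw [pow_succ_apply']; exact hstab _ (ih x hx)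

/-- **Wild elements die in `p`-groups.**  A group hom `f` on `Gal(L/K)` which is trivial on the
fixing subgroup of a finite-dimensional `τ`-stable intermediate field `E` kills every element
`τ` of the inertia group which is wild on `E` and such that `f τ` has `p`-power order, `p` a
prime which is a unit of `A`. -/
theorem map_eq_one_of_wild [Algebra.IsAlgebraic K L] {Γ : Type*} [Group Γ]
    (f : (L ≃ₐ[K] L) →* Γ) (E : IntermediateField K L) [FiniteDimensional K E]
    (hf : ∀ σ : L ≃ₐ[K] L, (∀ x ∈ E, σ x = x) → f σ = 1)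
    {τ : L ≃ₐ[K] L} (hτ : τ ∈ A.inertiaSubgroupIn K)
    (hstab : ∀ x ∈ E, τ x ∈ E) (hwild : IsWildOn A τ (E : Set L))
    (p : ℕ) (hp : p.Prime) (hpA : A.valuation (p : L) = 1) (k : ℕ) (hk : f τ ^ p ^ k = 1) :
    f τ = 1 := by
  have hD : τ ∈ A.decompositionSubgroup K := mem_decomposition_of_mem_inertiaIn A hτ
  obtain ⟨N, hN, hfix⟩ := exists_pow_fixes τ E
  obtain ⟨j, m', hm', hNeq⟩ := Nat.exists_eq_pow_mul_and_not_dvd hN.ne' p hp.ne_one
  -- `τ ^ m'` fixes `E`
  have hfix' : ∀ x ∈ E, (τ ^ m') x = x := by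
    refine fixes_of_pow_fixes (A := A) (pow_mem hτ m') E (pow_apply_mem τ E hstab m')
      (hwild.pow hD m') (p ^ j) ?_ ?_
    · rw [Nat.cast_pow, map_pow, hpA, one_pow]
    · intro x hx
      rw [pow_mul_apply, mul_comm, ← hNeq]
      exact hfix x hx
  have h1 : f τ ^ m' = 1 := by
    rw [← map_pow]
    exact hf _ hfix'
  have ho1 : orderOf (f τ) ∣ m' := orderOf_dvd_of_pow_eq_one h1
  have ho2 : orderOf (f τ) ∣ p ^ k := orderOf_dvd_of_pow_eq_one hk
  have hcop : Nat.Coprime m' (p ^ k) :=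
    Nat.Coprime.pow_right k ((Nat.Prime.coprime_iff_not_dvd hp).mpr hm').symm
  have ho : orderOf (f τ) = 1 :=
    Nat.Coprime.eq_one_of_dvd (Nat.Coprime.coprime_dvd_left ho1 hcop) ho2
  exact orderOf_eq_one_iff.mp ho

/-- **Wild elements die in `p`-groups, subgroup version.**  Same as `map_eq_one_of_wild` for a
hom `f` defined only on a subgroup `H` of `Gal(L/K)` containing `τ` (e.g. the inertia or the
decomposition group). -/
theorem map_eq_one_of_wild_subgroup [Algebra.IsAlgebraic K L] {Γ : Type*} [Group Γ]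
    (H : Subgroup (L ≃ₐ[K] L)) (f : H →* Γ) (E : IntermediateField K L) [FiniteDimensional K E]
    (hf : ∀ σ : H, (∀ x ∈ E, (σ : L ≃ₐ[K] L) x = x) → f σ = 1)
    {τ : L ≃ₐ[K] L} (hτH : τ ∈ H) (hτ : τ ∈ A.inertiaSubgroupIn K)
    (hstab : ∀ x ∈ E, τ x ∈ E) (hwild : IsWildOn A τ (E : Set L))
    (p : ℕ) (hp : p.Prime) (hpA : A.valuation (p : L) = 1) (k : ℕ)
    (hk : f ⟨τ, hτH⟩ ^ p ^ k = 1) :
    f ⟨τ, hτH⟩ = 1 := by
  have hD : τ ∈ A.decompositionSubgroup K := mem_decomposition_of_mem_inertiaIn A hτ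
  obtain ⟨N, hN, hfix⟩ := exists_pow_fixes τ E
  obtain ⟨j, m', hm', hNeq⟩ := Nat.exists_eq_pow_mul_and_not_dvd hN.ne' p hp.ne_one
  have hfix' : ∀ x ∈ E, (τ ^ m') x = x := by
    refine fixes_of_pow_fixes (A := A) (pow_mem hτ m') E (pow_apply_mem τ E hstab m')
      (hwild.pow hD m') (p ^ j) ?_ ?_
    · rw [Nat.cast_pow, map_pow, hpA, one_pow]
    · intro x hx
      rw [pow_mul_apply, mul_comm, ← hNeq]
      exact hfix x hx
  have h1 : f ⟨τ, hτH⟩ ^ m' = 1 := by
    rw [← map_pow]
    exact hf _ hfix'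
  have ho1 : orderOf (f ⟨τ, hτH⟩) ∣ m' := orderOf_dvd_of_pow_eq_one h1
  have ho2 : orderOf (f ⟨τ, hτH⟩) ∣ p ^ k := orderOf_dvd_of_pow_eq_one hk
  have hcop : Nat.Coprime m' (p ^ k) :=
    Nat.Coprime.pow_right k ((Nat.Prime.coprime_iff_not_dvd hp).mpr hm').symm
  have ho : orderOf (f ⟨τ, hτH⟩) = 1 :=
    Nat.Coprime.eq_one_of_dvd (Nat.Coprime.coprime_dvd_left ho1 hcop) ho2
  exact orderOf_eq_one_iff.mp ho

/-- Wildness in terms of the tame character of `A2/H708/Tame.lean`. -/
theorem isWildOn_iff_tameHom [Algebra.IsAlgebraic K L] {τ : L ≃ₐ[K] L}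
    (hτ : τ ∈ A.inertiaSubgroupIn K) (E : Set L) :
    IsWildOn A τ E ↔ ∀ c : Lˣ, (c : L) ∈ E → tameHom A hτ c = 1 := by
  constructor
  · intro h c hc
    rw [tameHom_eq_one_iff]
    exact h c hc c.ne_zero
  · intro h c hc hc0
    have := h (Units.mk0 c hc0) hc
    rw [tameHom_eq_one_iff] at this
    exact this

end Fermat.Agent.S56.H554
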