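import Mathlib
import Fermat.Agent.A2.H708.Tame
import Fermat.Agent.S56.H554.TameWild
import Fermat.Agent.S56.H554.TameLevel
import Fermat.Agent.Lib.Cheb.H476.FrobConj

/-!
# S56 / local engine at `q ≠ p` (helper554): the KEY TAME LEMMA

`P` a valuation subring of `ℚ̄` over the prime `q`, `L ⊆ ℚ̄` a finite normal extension of `ℚ`,
`p ≠ q` a prime.

* `exists_tame_generator` : there is `τ₀ ∈ I_P` such that every `τ ∈ I_P` is `τ₀ ^ n` times an
  element which is wild on `L`.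
* `tameHom_conj_frobenius` : `tame(φ τ φ⁻¹) = tame(τ) ^ q` for a Frobenius element `φ` at `P`.
* `key_tame` : **Key Tame Lemma.** There is `τ₀ ∈ I_P` such that for EVERY group hom
  `f : G_ℚ →* Γ` which is trivial on `G_L` and has `p`-power order on `I_P`:
  `f τ ∈ ⟨f τ₀⟩` for all `τ ∈ I_P`, and `f (φ τ φ⁻¹) = f τ ^ q` for every Frobenius `φ` at `P`.
-/

set_option autoImplicit false

namespace Fermat.Agent.S56.H554

open Fermat.Agent.A2.H708

open scoped Pointwise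

/-- `ℚ̄/ℚ` is algebraic (local instance for the tame character API). -/
theorem isAlgebraic_Qb : Algebra.IsAlgebraic ℚ Qb := AlgebraicClosure.isAlgebraic ℚ

attribute [local instance] isAlgebraic_Qb

variable {P : ValuationSubring Qb} {q : ℕ}

/-- A prime `p ≠ q` is a unit of `P`. -/
theorem valuation_prime_eq_one (hq : q.Prime) (hP : P.LiesOverPrime q) {p : ℕ} (hp : p.Prime)
    (hpq : p ≠ q) : P.valuation (p : Qb) = 1 := by
  have hcop : Nat.Coprime p q := (Nat.coprime_primes hp hq).mpr hpq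
  have hle : ∀ n : ℤ, P.valuation (n : Qb) ≤ 1 := fun n =>
    (P.valuation_le_one_iff _).mpr (intCast_mem P n)
  have hbez : (p : ℤ) * Nat.gcdA p q + (q : ℤ) * Nat.gcdB p q = 1 := by
    have := Nat.gcd_eq_gcd_ab p q
    rw [hcop.gcd_eq_one] at this
    exact_mod_cast this.symm
  have hq1 : P.valuation (q : Qb) < 1 := P.mem_nonunits_iff.mp hP
  have h1 : (p : Qb) * ((Nat.gcdA p q : ℤ) : Qb) = 1 - (q : Qb) * ((Nat.gcdB p q : ℤ) : Qb) := by
    have := congrArg (fun z : ℤ => (z : Qb)) hbez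
    push_cast at this
    linear_combination this
  have h2 : P.valuation ((q : Qb) * ((Nat.gcdB p q : ℤ) : Qb)) < 1 := by
    rw [map_mul]
    exact mul_lt_one_of_nonneg_of_lt_one_left zero_le hq1 (hle _)
  have h3 : P.valuation ((p : Qb) * ((Nat.gcdA p q : ℤ) : Qb)) = 1 := by
    rw [h1]
    exact Valuation.map_one_sub_of_lt _ h2
  rw [map_mul] at h3
  have hp1 : P.valuation (p : Qb) ≤ 1 := by
    have := hle (p : ℤ)
    rwa [Int.cast_natCast] at this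
  refine le_antisymm hp1 ?_
  by_contra hlt
  push Not at hlt
  have : P.valuation (p : Qb) * P.valuation ((Nat.gcdA p q : ℤ) : Qb) < 1 :=
    mul_lt_one_of_nonneg_of_lt_one_left zero_le hlt (hle _)
  exact absurd h3 this.ne

/-- The value of the tame character in the residue field. -/
theorem coe_tameHom {τ : GQ} (hτ : τ ∈ P.inertiaSubgroupIn ℚ) (c : Qbˣ)
    (h : τ (c : Qb) / c ∈ P) :
    ((tameHom P hτ c : (IsLocalRing.ResidueField P)ˣ) : IsLocalRing.ResidueField P) =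
      IsLocalRing.residue P ⟨τ (c : Qb) / c, h⟩ := by
  unfold tameHom
  rw [MonoidHom.comp_apply, ValuationSubring.coe_unitGroupToResidueFieldUnits_apply]
  congr 1
  apply Subtype.ext
  rw [ValuationSubring.coe_unitGroupMulEquiv_apply, coe_ratioHom]

theorem residue_eq_of_sub_mem_nonunits {a b : Qb} (ha : a ∈ P) (hb : b ∈ P)
    (h : a - b ∈ P.nonunits) :
    IsLocalRing.residue P ⟨a, ha⟩ = IsLocalRing.residue P ⟨b, hb⟩ := by
  rw [← sub_eq_zero, ← map_sub, IsLocalRing.residue_eq_zero_iff,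
    ← ValuationSubring.coe_mem_nonunits_iff]
  exact h

/-- **Frobenius acts on the tame character by the `q`-th power.** -/
theorem tameHom_conj_frobenius {φ τ : GQ} (hφ : P.IsFrobeniusAt φ q)
    (hτ : τ ∈ P.inertiaSubgroupIn ℚ) (hc : φ * τ * φ⁻¹ ∈ P.inertiaSubgroupIn ℚ) (c : Qbˣ) :
    tameHom P hc c = tameHom P hτ c ^ q := by
  obtain ⟨hφD, hφF⟩ := (Fermat.Agent.Lib.Cheb.H476.isFrobeniusAt_iff P φ q).mp hφ
  have hτD : τ ∈ P.decompositionSubgroup ℚ := mem_decomposition_of_mem_inertiaIn P hτ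
  set y : Qbˣ := Units.map ((φ⁻¹ : GQ) : Qb →* Qb) c with hy
  have hyc : ((y : Qbˣ) : Qb) = φ⁻¹ (c : Qb) := rfl
  have hφy : φ (y : Qb) = c := by
    rw [hyc]
    show (φ * φ⁻¹) (c : Qb) = c
    rw [mul_inv_cancel]; rfl
  have hval : P.valuation ((y : Qbˣ) : Qb) = P.valuation (c : Qb) := by
    rw [hyc]
    exact valuation_apply_of_mem_decomposition P (inv_mem hφD) (c : Qb)
  have hy' : tameHom P hτ y = tameHom P hτ c := tameHom_eq_of_valuation_eq P hτ y c hval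
  rw [← hy']
  -- the unit `u = τ y / y`
  have hu : τ (y : Qb) / y ∈ P := by
    rw [← P.valuation_le_one_iff]
    exact (valuation_apply_div_self P hτD y.ne_zero).le
  have hconj : (φ * τ * φ⁻¹) (c : Qb) / c = φ (τ (y : Qb) / y) := by
    rw [map_div₀, hφy]
    rfl
  have hc' : (φ * τ * φ⁻¹) (c : Qb) / c ∈ P := by
    rw [hconj]
    exact apply_mem_of_mem_decomposition P hφD hu
  apply Units.ext
  rw [Units.val_pow_eq_pow_val, coe_tameHom hc c hc', coe_tameHom hτ y hu, ← map_pow]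
  have hpow : (⟨τ (y : Qb) / y, hu⟩ : P) ^ q = ⟨(τ (y : Qb) / y) ^ q, P.pow_mem hu q⟩ := rfl
  rw [hpow]
  apply residue_eq_of_sub_mem_nonunits
  rw [hconj]
  exact hφF _ hu

/-- The tame character at `c`, as a group hom on the inertia group. -/
noncomputable def tameAt (P : ValuationSubring Qb) (c : Qbˣ) :
    ↥(P.inertiaSubgroupIn ℚ) →* (IsLocalRing.ResidueField P)ˣ where
  toFun τ := tameHom P τ.2 c
  map_one' := tameHom_eq_one_of_fixed P _ c rfl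
  map_mul' σ τ := tameHom_mul P σ.2 τ.2 c

theorem tameAt_apply (c : Qbˣ) (τ : ↥(P.inertiaSubgroupIn ℚ)) :
    tameAt P c τ = tameHom P τ.2 c := rfl

/-- If the tame character of `τ` is trivial at a uniformizer of `L`, then `τ` is wild on `L`. -/
theorem isWildOn_of_tameHom_uniformizer (L : IntermediateField ℚ Qb) {ϖ : L}
    (hϖ0 : (ϖ : Qb) ≠ 0)
    (hdisc : ∀ c : L, c ≠ 0 → ∃ n : ℤ, P.valuation (c : Qb) = P.valuation (ϖ : Qb) ^ n)
    {τ : GQ} (hτ : τ ∈ P.inertiaSubgroupIn ℚ)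
    (h1 : tameHom P hτ (Units.mk0 (ϖ : Qb) hϖ0) = 1) : IsWildOn P τ (L : Set Qb) := by
  rw [isWildOn_iff_tameHom hτ]
  intro c hc
  have hc0 : (⟨(c : Qb), hc⟩ : L) ≠ 0 := by
    intro h
    exact c.ne_zero (congrArg Subtype.val h)
  obtain ⟨n, hn⟩ := hdisc ⟨(c : Qb), hc⟩ hc0
  have hval : P.valuation ((c : Qbˣ) : Qb) =
      P.valuation (((Units.mk0 (ϖ : Qb) hϖ0 ^ n : Qbˣ) : Qbˣ) : Qb) := by
    rw [Units.val_zpow_eq_zpow_val, map_zpow₀]
    exact hn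
  rw [tameHom_eq_of_valuation_eq P hτ c _ hval, map_zpow, h1, one_zpow]

/-- **Cyclicity of tame inertia at finite level.** -/
theorem exists_tame_generator (hq : q.Prime) (hP : P.LiesOverPrime q)
    (L : IntermediateField ℚ Qb) [FiniteDimensional ℚ L] :
    ∃ τ₀ ∈ P.inertiaSubgroupIn ℚ, ∀ τ ∈ P.inertiaSubgroupIn ℚ,
      ∃ n : ℤ, ∃ ω ∈ P.inertiaSubgroupIn ℚ, IsWildOn P ω (L : Set Qb) ∧ τ = τ₀ ^ n * ω := by
  obtain ⟨ϖ, hϖ0, hϖlt, hdisc⟩ := exists_uniformizer (P := P) (L := L) hq hP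
  have hϖ0' : (ϖ : Qb) ≠ 0 := fun h => hϖ0 (by exact_mod_cast h)
  set ϖu : Qbˣ := Units.mk0 (ϖ : Qb) hϖ0' with hϖu
  -- an exponent killing the tame character
  have hqL : ((q : ℕ) : L) ≠ 0 := by exact_mod_cast hq.ne_zero
  obtain ⟨n, hn⟩ := hdisc (q : L) hqL
  have hqQ : (((q : ℕ) : L) : Qb) = (q : Qb) := by push_cast; rfl
  rw [hqQ] at hn
  have hq1 : P.valuation (q : Qb) < 1 := P.mem_nonunits_iff.mp hP
  have hn0 : n ≠ 0 := by
    rintro rfl
    rw [zpow_zero] at hn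
    exact absurd hn hq1.ne
  have hq0 : (q : Qb) ≠ 0 := by exact_mod_cast hq.ne_zero
  have hkill : ∀ τ : ↥(P.inertiaSubgroupIn ℚ), tameAt P ϖu τ ^ n.natAbs = 1 := by
    intro τ
    have h1 : tameHom P τ.2 ϖu ^ n = 1 := by
      have hval : P.valuation (((ϖu ^ n : Qbˣ) : Qbˣ) : Qb) =
          P.valuation (((Units.mk0 (q : Qb) hq0 : Qbˣ)) : Qb) := by
        rw [Units.val_zpow_eq_zpow_val, map_zpow₀]
        exact hn.symm
      rw [← map_zpow, tameHom_eq_of_valuation_eq P τ.2 _ _ hval]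
      exact tameHom_algebraMap P τ.2 _ (q : ℚ) (by simp)
    rw [tameAt_apply]
    rcases Int.natAbs_eq n with h | h
    · rw [h, zpow_natCast] at h1
      simpa using h1
    · rw [h, zpow_neg, zpow_natCast, inv_eq_one] at h1
      simpa using h1
  have hm : NeZero n.natAbs := ⟨Int.natAbs_ne_zero.mpr hn0⟩
  have hle : (tameAt P ϖu).range ≤ rootsOfUnity n.natAbs (IsLocalRing.ResidueField P) := by
    rintro x ⟨τ, rfl⟩
    rw [mem_rootsOfUnity]
    exact hkill τ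
  have hfin : Finite ↥(tameAt P ϖu).range :=
    Finite.of_injective (Subgroup.inclusion hle) (Subgroup.inclusion_injective hle)
  obtain ⟨g, hg⟩ := IsCyclic.exists_zpow_surjective (G := ↥(tameAt P ϖu).range)
  obtain ⟨τ₀, hτ₀⟩ := g.2
  refine ⟨τ₀, τ₀.2, fun τ hτ => ?_⟩
  obtain ⟨n', hn'⟩ := hg ⟨tameAt P ϖu ⟨τ, hτ⟩, ⟨⟨τ, hτ⟩, rfl⟩⟩
  have hn'' : tameAt P ϖu τ₀ ^ n' = tameAt P ϖu ⟨τ, hτ⟩ := by
    have := congrArg Subtype.val hn'
    simp only [Subgroup.coe_zpow] at this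
    rw [← hτ₀] at this
    exact this
  set ω : ↥(P.inertiaSubgroupIn ℚ) := τ₀ ^ (-n') * ⟨τ, hτ⟩ with hω
  refine ⟨n', (ω : GQ), ω.2, ?_, ?_⟩
  · apply isWildOn_of_tameHom_uniformizer L hϖ0' hdisc ω.2
    show tameAt P ϖu ω = 1
    rw [hω, map_mul, map_zpow, zpow_neg, hn'', inv_mul_cancel]
  · have h1 : (τ₀ ^ n' * ω : ↥(P.inertiaSubgroupIn ℚ)) = ⟨τ, hτ⟩ := by
      rw [hω, zpow_neg, mul_inv_cancel_left]
    have h2 := congrArg Subtype.val h1
    rw [Subgroup.coe_mul, Subgroup.coe_zpow] at h2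
    exact h2.symm

theorem conj_mem_inertia_of_mem_decomposition {φ τ : GQ}
    (hφ : φ ∈ P.decompositionSubgroup ℚ) (hτ : τ ∈ P.inertiaSubgroupIn ℚ) :
    φ * τ * φ⁻¹ ∈ P.inertiaSubgroupIn ℚ := by
  have h := Fermat.Agent.Lib.Cheb.H476.conj_mem_inertia φ hτ
  rwa [MulAction.mem_stabilizer_iff.mp hφ] at h

/-- `φ τ φ⁻¹ τ^{-q}` is wild (on everything) for a Frobenius element `φ`. -/
theorem isWildOn_conj_frobenius {φ τ : GQ} (hφ : P.IsFrobeniusAt φ q)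
    (hτ : τ ∈ P.inertiaSubgroupIn ℚ) (E : Set Qb) :
    ∃ ω ∈ P.inertiaSubgroupIn ℚ, IsWildOn P ω E ∧ φ * τ * φ⁻¹ = ω * τ ^ q := by
  have hφD := ((Fermat.Agent.Lib.Cheb.H476.isFrobeniusAt_iff P φ q).mp hφ).1
  have hc := conj_mem_inertia_of_mem_decomposition hφD hτ
  set I := P.inertiaSubgroupIn ℚ
  set ω : ↥I := ⟨φ * τ * φ⁻¹, hc⟩ * (⟨τ, hτ⟩ ^ q)⁻¹ with hω
  refine ⟨(ω : GQ), ω.2, ?_, ?_⟩
  · rw [isWildOn_iff_tameHom ω.2]
    intro c _
    show tameAt P c ω = 1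
    rw [hω, map_mul, map_inv, map_pow, tameAt_apply, tameAt_apply,
      tameHom_conj_frobenius hφ hτ hc c, mul_inv_cancel]
  · have h1 : (ω * ⟨τ, hτ⟩ ^ q : ↥I) = ⟨φ * τ * φ⁻¹, hc⟩ := by
      rw [hω, inv_mul_cancel_right]
    have h2 := congrArg Subtype.val h1
    rw [Subgroup.coe_mul, Subgroup.coe_pow] at h2
    exact h2.symm

/-- **KEY TAME LEMMA.**  `P` over `q`, `L` finite normal over `ℚ`, `p ≠ q` prime.  There is
`τ₀ ∈ I_P` such that for every group hom `f` on `G_ℚ`, trivial on `G_L`, with `f τ` of `p`-power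
order for all `τ ∈ I_P`:  `f(I_P) ⊆ ⟨f τ₀⟩`, and `f (φ τ φ⁻¹) = f τ ^ q` for every Frobenius
element `φ` at `P` and every `τ ∈ I_P`. -/
theorem key_tame (hq : q.Prime) (hP : P.LiesOverPrime q)
    (L : IntermediateField ℚ Qb) [FiniteDimensional ℚ L] (hL : ∀ σ : GQ, ∀ x ∈ L, σ x ∈ L)
    {p : ℕ} (hp : p.Prime) (hpq : p ≠ q) :
    ∃ τ₀ ∈ P.inertiaSubgroupIn ℚ, ∀ {Γ : Type*} [Group Γ] (f : GQ →* Γ),
      (∀ σ : GQ, (∀ x ∈ L, σ x = x) → f σ = 1) →
      (∀ τ ∈ P.inertiaSubgroupIn ℚ, ∃ k : ℕ, f τ ^ p ^ k = 1) →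
      (∀ τ ∈ P.inertiaSubgroupIn ℚ, ∃ n : ℤ, f τ = f τ₀ ^ n) ∧
      (∀ φ : GQ, P.IsFrobeniusAt φ q → ∀ τ ∈ P.inertiaSubgroupIn ℚ,
        f (φ * τ * φ⁻¹) = f τ ^ q) := by
  obtain ⟨τ₀, hτ₀, hgen⟩ := exists_tame_generator hq hP L
  refine ⟨τ₀, hτ₀, fun {Γ} _ f hf hpow => ⟨fun τ hτ => ?_, fun φ hφ τ hτ => ?_⟩⟩
  · obtain ⟨n, ω, hω, hwild, rfl⟩ := hgen τ hτ
    obtain ⟨k, hk⟩ := hpow ω hω
    have h1 : f ω = 1 := map_eq_one_of_wild (A := P) f L hf hω (hL ω) hwild p hp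
      (valuation_prime_eq_one hq hP hp hpq) k hk
    exact ⟨n, by rw [map_mul, map_zpow, h1, mul_one]⟩
  · obtain ⟨ω, hω, hwild, hconj⟩ := isWildOn_conj_frobenius hφ hτ (L : Set Qb)
    obtain ⟨k, hk⟩ := hpow ω hω
    have h1 : f ω = 1 := map_eq_one_of_wild (A := P) f L hf hω (hL ω) hwild p hp
      (valuation_prime_eq_one hq hP hp hpq) k hk
    rw [hconj, map_mul, map_pow, h1, one_mul]

end Fermat.Agent.S56.H554
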