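import Mathlib
import Fermat.Agent.S56.H554.TameCyclic
import Fermat.Agent.S56.H716.TBDefs

/-!
# S56 / leaf LOC-TW (helper554): cocycles on the inertia group at a prime `q ≠ p`

`k` a field of characteristic `p`, `ρbar : ResidualGaloisRep k` unramified at `P | q`, `q ≠ p`.
`c` is an ad-cocycle (`H716.IsAdCocycle`) or more generally any function satisfying the
cocycle relation (`IsCoc`).

* `coc_add_on_inertia`, `cocHom` : `c` is an additive hom on `I_P`;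
* `coc_eq_zero_of_wild` : `c` kills the elements of `I_P` which are wild on its level;
* `coc_conj_frobenius` : `c (φ τ φ⁻¹) = q • c τ` for `τ ∈ I_P`, `φ` a Frobenius element at `P`;
* `coc_commute_frobenius` : if `p ∣ q - 1` then `c τ` commutes with `ρ̄ φ`;
* `exists_inertia_generator` : a generator `τ₀ ∈ I_P` which works for ALL cocycles of a given
  level: `c τ = n • c τ₀`.
-/

set_option autoImplicit false

open scoped Pointwise

namespace Fermat.Agent.S56.H554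

open Fermat.Agent.A2.H708 Fermat.Agent.S56 Fermat.Agent.S56.H716

attribute [local instance] isAlgebraic_Qb

variable {k : Type} [Field k] (ρbar : ResidualGaloisRep k)

/-- The cocycle relation and level-constancy, without the trace condition. -/
structure IsCoc (L : IntermediateField ℚ Qb) (c : GQ → Module.End k ρbar.V) : Prop where
  map_mul : ∀ σ τ, c (σ * τ) = c σ + ρbar.ρ σ * c τ * ρbar.ρ σ⁻¹
  level : ∀ σ τ : GQ, (∀ x ∈ L, τ x = x) → c (σ * τ) = c σ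

variable {ρbar}

theorem IsCoc.mono {L L' : IntermediateField ℚ Qb} (h : L ≤ L') {c : GQ → Module.End k ρbar.V}
    (hc : IsCoc ρbar L c) : IsCoc ρbar L' c :=
  ⟨hc.map_mul, fun σ τ hτ => hc.level σ τ fun x hx => hτ x (h hx)⟩

theorem IsCoc.map_one {L : IntermediateField ℚ Qb} {c : GQ → Module.End k ρbar.V}
    (hc : IsCoc ρbar L c) : c 1 = 0 := by
  have h := hc.map_mul 1 1
  rw [mul_one, _root_.map_one, inv_one, _root_.map_one, one_mul, mul_one] at h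
  exact left_eq_add.mp h

theorem IsCoc.eq_zero_of_fixes {L : IntermediateField ℚ Qb} {c : GQ → Module.End k ρbar.V}
    (hc : IsCoc ρbar L c) {τ : GQ} (hτ : ∀ x ∈ L, τ x = x) : c τ = 0 := by
  have h := hc.level 1 τ hτ
  rwa [one_mul, hc.map_one] at h

theorem isCoc_of_isAdCocycle {c : GQ → Module.End k ρbar.V} (hc : IsAdCocycle ρbar c) :
    ∃ L : IntermediateField ℚ Qb, FiniteDimensional ℚ L ∧ IsCoc ρbar L c := by
  obtain ⟨L, hL, h⟩ := hc.level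
  exact ⟨L, hL, ⟨hc.map_mul, h⟩⟩

section inertia

variable {P : ValuationSubring Qb}

/-- On a subgroup where `ρ̄` is trivial, a cocycle is additive. -/
theorem IsCoc.add_of_rho_eq_one {L : IntermediateField ℚ Qb} {c : GQ → Module.End k ρbar.V}
    (hc : IsCoc ρbar L c) {σ : GQ} (hσ : ρbar.ρ σ = 1) (τ : GQ) : c (σ * τ) = c σ + c τ := by
  have h1 : ρbar.ρ σ⁻¹ = 1 := by
    have := _root_.map_mul ρbar.ρ σ σ⁻¹
    rw [mul_inv_cancel, _root_.map_one, hσ, one_mul] at this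
    exact this.symm
  rw [hc.map_mul, hσ, h1, one_mul, mul_one]

/-- The restriction of a cocycle to the inertia group (where `ρ̄` is trivial), as a hom. -/
noncomputable def cocHom {L : IntermediateField ℚ Qb} {c : GQ → Module.End k ρbar.V}
    (hc : IsCoc ρbar L c) (hur : ∀ σ ∈ P.inertiaSubgroupIn ℚ, ρbar.ρ σ = 1) :
    ↥(P.inertiaSubgroupIn ℚ) →* Multiplicative (Module.End k ρbar.V) where
  toFun σ := Multiplicative.ofAdd (c σ)
  map_one' := by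
    show Multiplicative.ofAdd (c 1) = 1
    rw [hc.map_one]
    rfl
  map_mul' σ τ := by
    show Multiplicative.ofAdd (c (σ * τ)) = Multiplicative.ofAdd (c σ) * Multiplicative.ofAdd (c τ)
    rw [hc.add_of_rho_eq_one (hur σ σ.2)]
    rfl

theorem cocHom_apply {L : IntermediateField ℚ Qb} {c : GQ → Module.End k ρbar.V}
    (hc : IsCoc ρbar L c) (hur : ∀ σ ∈ P.inertiaSubgroupIn ℚ, ρbar.ρ σ = 1)
    (σ : ↥(P.inertiaSubgroupIn ℚ)) :
    cocHom hc hur σ = Multiplicative.ofAdd (c σ) := rfl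

theorem IsCoc.map_pow_of_mem_inertia {L : IntermediateField ℚ Qb}
    {c : GQ → Module.End k ρbar.V} (hc : IsCoc ρbar L c)
    (hur : ∀ σ ∈ P.inertiaSubgroupIn ℚ, ρbar.ρ σ = 1) {τ : GQ}
    (hτ : τ ∈ P.inertiaSubgroupIn ℚ) (n : ℕ) : c (τ ^ n) = n • c τ := by
  have h := map_pow (cocHom hc hur) ⟨τ, hτ⟩ n
  have h1 : cocHom hc hur (⟨τ, hτ⟩ ^ n) = Multiplicative.ofAdd (c (τ ^ n)) := rfl
  rw [h1, cocHom_apply] at h
  exact Multiplicative.ofAdd.injective h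

theorem IsCoc.map_zpow_of_mem_inertia {L : IntermediateField ℚ Qb}
    {c : GQ → Module.End k ρbar.V} (hc : IsCoc ρbar L c)
    (hur : ∀ σ ∈ P.inertiaSubgroupIn ℚ, ρbar.ρ σ = 1) {τ : GQ}
    (hτ : τ ∈ P.inertiaSubgroupIn ℚ) (n : ℤ) : c (τ ^ n) = n • c τ := by
  have h := map_zpow (cocHom hc hur) ⟨τ, hτ⟩ n
  have h1 : cocHom hc hur (⟨τ, hτ⟩ ^ n) = Multiplicative.ofAdd (c (τ ^ n)) := rfl
  rw [h1, cocHom_apply] at h
  exact Multiplicative.ofAdd.injective h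

variable {q p : ℕ}

/-- **Wild elements are killed by cocycles** (`char k = p ≠ q`). -/
theorem IsCoc.eq_zero_of_wild [CharP k p] (hq : q.Prime) (hP : P.LiesOverPrime q)
    (hp : p.Prime) (hpq : p ≠ q)
    {L : IntermediateField ℚ Qb} [FiniteDimensional ℚ L] (hL : ∀ σ : GQ, ∀ x ∈ L, σ x ∈ L)
    {c : GQ → Module.End k ρbar.V} (hc : IsCoc ρbar L c)
    (hur : ∀ σ ∈ P.inertiaSubgroupIn ℚ, ρbar.ρ σ = 1) {ω : GQ}
    (hω : ω ∈ P.inertiaSubgroupIn ℚ) (hwild : IsWildOn P ω (L : Set Qb)) : c ω = 0 := by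
  have h := map_eq_one_of_wild_subgroup (A := P) (P.inertiaSubgroupIn ℚ) (cocHom hc hur) L
    (fun σ hσ => by
      rw [cocHom_apply, hc.eq_zero_of_fixes hσ]
      rfl)
    hω hω (hL ω) hwild p hp (valuation_prime_eq_one hq hP hp hpq) 1
    (by
      rw [pow_one, ← map_pow]
      have h1 : cocHom hc hur (⟨ω, hω⟩ ^ p) = Multiplicative.ofAdd (c (ω ^ p)) := rfl
      rw [h1, hc.map_pow_of_mem_inertia hur hω, ← Nat.cast_smul_eq_nsmul k, CharP.cast_eq_zero,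
        zero_smul]
      rfl)
  rw [cocHom_apply] at h
  exact Multiplicative.ofAdd.injective h

/-- **Frobenius relation for cocycles**: `c (φ τ φ⁻¹) = q • c τ` on inertia. -/
theorem IsCoc.conj_frobenius [CharP k p] (hq : q.Prime) (hP : P.LiesOverPrime q)
    (hp : p.Prime) (hpq : p ≠ q)
    {L : IntermediateField ℚ Qb} [FiniteDimensional ℚ L] (hL : ∀ σ : GQ, ∀ x ∈ L, σ x ∈ L)
    {c : GQ → Module.End k ρbar.V} (hc : IsCoc ρbar L c)
    (hur : ∀ σ ∈ P.inertiaSubgroupIn ℚ, ρbar.ρ σ = 1) {φ τ : GQ}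
    (hφ : P.IsFrobeniusAt φ q) (hτ : τ ∈ P.inertiaSubgroupIn ℚ) :
    c (φ * τ * φ⁻¹) = q • c τ := by
  obtain ⟨ω, hω, hwild, hconj⟩ := isWildOn_conj_frobenius hφ hτ (L : Set Qb)
  rw [hconj, hc.add_of_rho_eq_one (hur ω hω), hc.eq_zero_of_wild hq hP hp hpq hL hur hω hwild,
    zero_add, hc.map_pow_of_mem_inertia hur hτ]

theorem rho_mul_inv (σ : GQ) : ρbar.ρ σ * ρbar.ρ σ⁻¹ = 1 := by
  rw [← map_mul, mul_inv_cancel, map_one]

theorem rho_inv_mul (σ : GQ) : ρbar.ρ σ⁻¹ * ρbar.ρ σ = 1 := by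
  rw [← map_mul, inv_mul_cancel, map_one]

/-- The cocycle relation for a conjugate: `c (φ τ φ⁻¹) = ρ̄φ (c τ) ρ̄φ⁻¹` if `ρ̄ τ = 1`. -/
theorem IsCoc.map_conj {L : IntermediateField ℚ Qb} {c : GQ → Module.End k ρbar.V}
    (hc : IsCoc ρbar L c) (φ : GQ) {τ : GQ} (hτ : ρbar.ρ τ = 1) :
    c (φ * τ * φ⁻¹) = ρbar.ρ φ * c τ * ρbar.ρ φ⁻¹ := by
  have h0 : c φ + ρbar.ρ φ * c φ⁻¹ * ρbar.ρ φ⁻¹ = 0 := by
    have := hc.map_mul φ φ⁻¹
    rw [mul_inv_cancel, hc.map_one] at this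
    exact this.symm
  rw [mul_assoc, hc.map_mul φ (τ * φ⁻¹), hc.add_of_rho_eq_one hτ, mul_add, add_mul, ← add_assoc,
    add_right_comm, h0, zero_add]

/-- **T3.** If `q ≡ 1 mod p`, the values of a cocycle on inertia commute with `ρ̄(Frob)`. -/
theorem IsCoc.commute_frobenius [CharP k p] (hq : q.Prime) (hP : P.LiesOverPrime q)
    (hp : p.Prime) (hpq : p ≠ q) (hq1 : p ∣ q - 1)
    {L : IntermediateField ℚ Qb} [FiniteDimensional ℚ L] (hL : ∀ σ : GQ, ∀ x ∈ L, σ x ∈ L)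
    {c : GQ → Module.End k ρbar.V} (hc : IsCoc ρbar L c)
    (hur : ∀ σ ∈ P.inertiaSubgroupIn ℚ, ρbar.ρ σ = 1) {φ τ : GQ}
    (hφ : P.IsFrobeniusAt φ q) (hτ : τ ∈ P.inertiaSubgroupIn ℚ) :
    ρbar.ρ φ * c τ = c τ * ρbar.ρ φ := by
  have hqk : ((q : ℕ) : k) = 1 := by
    have h1 : ((q - 1 : ℕ) : k) = 0 := (CharP.cast_eq_zero_iff k p _).mpr hq1
    have h2 : q = (q - 1) + 1 := (Nat.sub_add_cancel hq.one_le).symm
    rw [h2, Nat.cast_add, h1, zero_add, Nat.cast_one]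
  have h1 := hc.conj_frobenius hq hP hp hpq hL hur hφ hτ
  rw [hc.map_conj φ (hur τ hτ), ← Nat.cast_smul_eq_nsmul k, hqk, one_smul] at h1
  calc ρbar.ρ φ * c τ = ρbar.ρ φ * c τ * (ρbar.ρ φ⁻¹ * ρbar.ρ φ) := by
        rw [rho_inv_mul, mul_one]
    _ = (ρbar.ρ φ * c τ * ρbar.ρ φ⁻¹) * ρbar.ρ φ := by rw [mul_assoc, mul_assoc, mul_assoc]
    _ = c τ * ρbar.ρ φ := by rw [h1]

/-- **T4.** A generator of tame inertia which works for ALL cocycles of level `L`. -/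
theorem exists_inertia_generator [CharP k p] (hq : q.Prime) (hP : P.LiesOverPrime q)
    (hp : p.Prime) (hpq : p ≠ q)
    (L : IntermediateField ℚ Qb) [FiniteDimensional ℚ L] (hL : ∀ σ : GQ, ∀ x ∈ L, σ x ∈ L)
    (hur : ∀ σ ∈ P.inertiaSubgroupIn ℚ, ρbar.ρ σ = 1) :
    ∃ τ₀ ∈ P.inertiaSubgroupIn ℚ, ∀ c : GQ → Module.End k ρbar.V, IsCoc ρbar L c →
      ∀ τ ∈ P.inertiaSubgroupIn ℚ, ∃ n : ℤ, c τ = n • c τ₀ := by
  obtain ⟨τ₀, hτ₀, hgen⟩ := exists_tame_generator hq hP L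
  refine ⟨τ₀, hτ₀, fun c hc τ hτ => ?_⟩
  obtain ⟨n, ω, hω, hwild, rfl⟩ := hgen τ hτ
  refine ⟨n, ?_⟩
  have h1 : ρbar.ρ (τ₀ ^ n) = 1 := hur _ (zpow_mem hτ₀ n)
  rw [hc.add_of_rho_eq_one h1, hc.eq_zero_of_wild hq hP hp hpq hL hur hω hwild, add_zero,
    hc.map_zpow_of_mem_inertia hur hτ₀]

end inertia

end Fermat.Agent.S56.H554
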