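import Mathlib
import Fermat.Agent.S56.H554.LocTW
import Fermat.Agent.S55.Bridge.Cyclo

/-!
# S56 / leaf LOC-TW (helper554): the tame local pairing at a Taylor–Wiles prime is non-degenerate

`q ≡ 1 mod p` a prime, `P | q`, `ρ̄` unramified at `P`, `φ` a Frobenius element at `P`,
`τ ∈ I_P`.  `x` an (untwisted) ad-cocycle, `y` a twisted cocycle vanishing on `I_P`.

* `fixes_mu_of_mem_inertia`, `fixes_mu_of_isFrobeniusAt` : `I_P` and `φ` fix `μ_p` pointwise.
* `trace_mul_eq_zero_of_cup_coboundary` : **NONDEG.** if the cup product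
  `(σ, σ') ↦ tr (x σ · σ(y σ'))` is a coboundary `dλ` on the decomposition group `D_P`
  (`λ` of finite level), then `tr (x τ · y φ) = 0`.
  (Heisenberg argument: `λ` is additive on `I_P`, `φ τ φ⁻¹ = ω τ^q` with `ω` wild.)

So for ANY injective linear `inv_q` on `H²(D_P, k(1))` the pairing
`(x, y) ↦ inv_q (x ∪ y)` on `(ramified part of x) × (y mod coboundaries)` is non-degenerate as soon
as `tr (x τ · y φ) ≠ 0`.
-/

set_option autoImplicit false

open scoped Pointwise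

namespace Fermat.Agent.S56.H554

open Fermat.Agent.A2.H708 Fermat.Agent.S56 Fermat.Agent.S56.H716

attribute [local instance] isAlgebraic_Qb

variable {P : ValuationSubring Qb} {q p : ℕ}

/-- The inertia group at `P | q`, `q ≠ p`, fixes the `p`-th roots of unity. -/
theorem fixes_mu_of_mem_inertia (hq : q.Prime) (hP : P.LiesOverPrime q) (hp : p.Prime)
    (hpq : p ≠ q) {τ : GQ} (hτ : τ ∈ P.inertiaSubgroupIn ℚ) : IsCycExp p τ 1 := by
  intro μ hμ
  rw [pow_one]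
  by_contra hne
  have hpv : P.valuation ((p : ℕ) : Qb) = 1 := valuation_prime_eq_one hq hP hp hpq
  have hτμ : (τ μ) ^ p = 1 := by rw [← map_pow, hμ, map_one]
  have h1 := Fermat.Agent.S55.Bridge.val_sub_roots_eq_one (A := P) hp.ne_zero hpv hτμ hμ hne
  have hμA : P.valuation μ ≤ 1 := by
    rw [P.valuation_le_one_iff]
    exact Fermat.Agent.S54.isIntegral_mem_valuationSubring P
      (IsIntegral.of_pow hp.pos (hμ ▸ isIntegral_one))
  have h2 := Fermat.Agent.S55.Bridge.inertia_val_sub_lt_one P hτ μ hμA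
  exact absurd h1 h2.ne

/-- A Frobenius element at `P | q` with `q ≡ 1 mod p` fixes the `p`-th roots of unity. -/
theorem fixes_mu_of_isFrobeniusAt (hq : q.Prime) (hP : P.LiesOverPrime q) (hp : p.Prime)
    (hpq : p ≠ q) (hq1 : p ∣ q - 1) {φ : GQ} (hφ : P.IsFrobeniusAt φ q) : IsCycExp p φ 1 := by
  intro μ hμ
  rw [pow_one]
  obtain ⟨-, hφF⟩ := (Fermat.Agent.Lib.Cheb.H476.isFrobeniusAt_iff P φ q).mp hφ
  have hμq : μ ^ q = μ := by
    obtain ⟨m, hm⟩ := hq1
    have h2 : q = p * m + 1 := by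
      have := Nat.sub_add_cancel hq.one_le
      omega
    rw [h2, pow_succ, pow_mul, hμ, one_pow, one_mul]
  by_contra hne
  have hpv : P.valuation ((p : ℕ) : Qb) = 1 := valuation_prime_eq_one hq hP hp hpq
  have hφμ : (φ μ) ^ p = 1 := by rw [← map_pow, hμ, map_one]
  have h1 := Fermat.Agent.S55.Bridge.val_sub_roots_eq_one (A := P) hp.ne_zero hpv hφμ hμ hne
  have hμA : μ ∈ P := Fermat.Agent.S54.isIntegral_mem_valuationSubring P
      (IsIntegral.of_pow hp.pos (hμ ▸ isIntegral_one))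
  have h2 := hφF μ hμA
  rw [hμq, P.mem_nonunits_iff] at h2
  exact absurd h1 h2.ne

variable {k : Type} [Field k] {ρbar : ResidualGaloisRep k}

theorem twAd_one (σ : GQ) (m : Module.End k ρbar.V) :
    twAd ρbar σ 1 m = ρbar.ρ σ * m * ρbar.ρ σ⁻¹ := by
  unfold twAd
  rw [Nat.cast_one, one_smul]

/-- **NONDEG at a Taylor–Wiles prime.**  If the cup product of the ad-cocycle `x` and the
twisted cocycle `y` (unramified at `P`) is the coboundary of a cochain `lam` of finite level on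
the decomposition group `D_P`, then `tr (x τ · y φ) = 0` for every `τ ∈ I_P` and every Frobenius
element `φ` at `P`. -/
theorem trace_mul_eq_zero_of_cup_coboundary [CharP k p] (hq : q.Prime)
    (hP : P.LiesOverPrime q) (hp : p.Prime) (hpq : p ≠ q) (hq1 : p ∣ q - 1)
    {L : IntermediateField ℚ Qb} [FiniteDimensional ℚ L] (hL : ∀ σ : GQ, ∀ x ∈ L, σ x ∈ L)
    (hur : ∀ σ ∈ P.inertiaSubgroupIn ℚ, ρbar.ρ σ = 1)
    {x : GQ → Module.End k ρbar.V} (hx : IsCoc ρbar L x)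
    {y : GQ → Module.End k ρbar.V}
    (hy : ∀ σ τ a, IsCycExp p σ a → y (σ * τ) = y σ + twAd ρbar σ a (y τ))
    (hyI : ∀ τ ∈ P.inertiaSubgroupIn ℚ, y τ = 0)
    {lam : GQ → k}
    (hlamL : ∀ τ ∈ P.inertiaSubgroupIn ℚ, (∀ z ∈ L, τ z = z) → lam τ = lam 1)
    (hcob : ∀ σ ∈ P.decompositionSubgroup ℚ, ∀ σ' ∈ P.decompositionSubgroup ℚ,
      ∀ a, IsCycExp p σ a →
        LinearMap.trace k ρbar.V (x σ * twAd ρbar σ a (y σ')) =
          (a : k) * lam σ' - lam (σ * σ') + lam σ)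
    {φ τ : GQ} (hφ : P.IsFrobeniusAt φ q) (hτ : τ ∈ P.inertiaSubgroupIn ℚ) :
    LinearMap.trace k ρbar.V (x τ * y φ) = 0 := by
  have hφD : φ ∈ P.decompositionSubgroup ℚ :=
    ((Fermat.Agent.Lib.Cheb.H476.isFrobeniusAt_iff P φ q).mp hφ).1
  have hID : ∀ σ ∈ P.inertiaSubgroupIn ℚ, σ ∈ P.decompositionSubgroup ℚ := fun σ hσ =>
    mem_decomposition_of_mem_inertiaIn P hσ
  have hφ1 : IsCycExp p φ 1 := fixes_mu_of_isFrobeniusAt hq hP hp hpq hq1 hφ
  have hI1 : ∀ σ ∈ P.inertiaSubgroupIn ℚ, IsCycExp p σ 1 := fun σ hσ =>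
    fixes_mu_of_mem_inertia hq hP hp hpq hσ
  -- the coboundary relation for elements fixing `μ_p`
  have hrel : ∀ σ ∈ P.decompositionSubgroup ℚ, ∀ σ' ∈ P.decompositionSubgroup ℚ,
      IsCycExp p σ 1 → lam (σ * σ') = lam σ + lam σ' -
        LinearMap.trace k ρbar.V (x σ * (ρbar.ρ σ * y σ' * ρbar.ρ σ⁻¹)) := by
    intro σ hσ σ' hσ' h1
    have := hcob σ hσ σ' hσ' 1 h1
    rw [twAd_one, Nat.cast_one, one_mul] at this
    rw [this]
    ring
  have hy1 : y 1 = 0 := by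
    have h := hy 1 1 1 (fun μ _ => by rw [pow_one]; rfl)
    rw [mul_one, twAd_one, map_one, inv_one, map_one, one_mul, mul_one] at h
    exact left_eq_add.mp h
  -- `lam 1 = 0`
  have hlam1 : lam 1 = 0 := by
    have h := hrel 1 (one_mem _) 1 (one_mem _) (fun μ _ => by rw [pow_one]; rfl)
    rw [mul_one, hx.map_one, zero_mul, map_zero, sub_zero] at h
    exact left_eq_add.mp h
  -- `lam` is additive on inertia
  have hadd : ∀ σ ∈ P.inertiaSubgroupIn ℚ, ∀ σ' ∈ P.inertiaSubgroupIn ℚ,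
      lam (σ * σ') = lam σ + lam σ' := by
    intro σ hσ σ' hσ'
    rw [hrel σ (hID σ hσ) σ' (hID σ' hσ') (hI1 σ hσ), hyI σ' hσ', mul_zero, zero_mul, mul_zero,
      map_zero, sub_zero]
  let lamHom : ↥(P.inertiaSubgroupIn ℚ) →* Multiplicative k :=
    { toFun := fun σ => Multiplicative.ofAdd (lam σ)
      map_one' := by
        show Multiplicative.ofAdd (lam 1) = 1
        rw [hlam1]; rfl
      map_mul' := fun σ σ' => by
        show Multiplicative.ofAdd (lam (σ * σ')) = _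
        rw [hadd σ σ.2 σ' σ'.2]; rfl }
  have hlamHom : ∀ σ : ↥(P.inertiaSubgroupIn ℚ), lamHom σ = Multiplicative.ofAdd (lam σ) :=
    fun _ => rfl
  have hlampow : ∀ σ ∈ P.inertiaSubgroupIn ℚ, ∀ n : ℕ, lam (σ ^ n) = n • lam σ := by
    intro σ hσ n
    have h := map_pow lamHom ⟨σ, hσ⟩ n
    have h1 : lamHom (⟨σ, hσ⟩ ^ n) = Multiplicative.ofAdd (lam (σ ^ n)) := rfl
    rw [h1, hlamHom] at h
    exact Multiplicative.ofAdd.injective h
  have hcast : ∀ (n : ℕ) (z : k), n • z = (n : k) * z := fun n z => nsmul_eq_mul n z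
  have hqk : ((q : ℕ) : k) = 1 := by
    have h1 : ((q - 1 : ℕ) : k) = 0 := (CharP.cast_eq_zero_iff k p _).mpr hq1
    have h2 : q = (q - 1) + 1 := (Nat.sub_add_cancel hq.one_le).symm
    rw [h2, Nat.cast_add, h1, zero_add, Nat.cast_one]
  -- wild elements are killed by `lam`
  have hwildlam : ∀ ω ∈ P.inertiaSubgroupIn ℚ, IsWildOn P ω (L : Set Qb) → lam ω = 0 := by
    intro ω hω hwild
    have h := map_eq_one_of_wild_subgroup (A := P) (P.inertiaSubgroupIn ℚ) lamHom L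
      (fun σ hσ => by
        rw [hlamHom, hlamL σ σ.2 hσ, hlam1]
        rfl)
      hω hω (hL ω) hwild p hp (valuation_prime_eq_one hq hP hp hpq) 1
      (by
        rw [pow_one, ← map_pow]
        have h1 : lamHom (⟨ω, hω⟩ ^ p) = Multiplicative.ofAdd (lam (ω ^ p)) := rfl
        rw [h1, hlampow ω hω, hcast, CharP.cast_eq_zero, zero_mul]
        rfl)
    rw [hlamHom] at h
    exact Multiplicative.ofAdd.injective h
  -- first computation of `lam (φ τ φ⁻¹)`
  obtain ⟨ω, hω, hwild, hconj⟩ := isWildOn_conj_frobenius hφ hτ (L : Set Qb)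
  have hA : lam (φ * τ * φ⁻¹) = lam τ := by
    rw [hconj, hadd ω hω _ (pow_mem hτ q), hwildlam ω hω hwild, zero_add, hlampow τ hτ, hcast,
      hqk, one_mul]
  -- second computation
  have hρτ : ρbar.ρ τ = 1 := hur τ hτ
  have hφτD : φ * τ ∈ P.decompositionSubgroup ℚ := mul_mem hφD (hID τ hτ)
  have hφinvD : φ⁻¹ ∈ P.decompositionSubgroup ℚ := inv_mem hφD
  have hφτ1 : IsCycExp p (φ * τ) 1 := by
    intro μ hμ
    have h1 := hI1 τ hτ μ hμ
    have h2 := hφ1 μ hμ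
    rw [pow_one] at h1 h2 ⊢
    show φ (τ μ) = μ
    rw [h1, h2]
  have hYdef : ρbar.ρ φ * y φ⁻¹ * ρbar.ρ φ⁻¹ = -y φ := by
    have h := hy φ φ⁻¹ 1 hφ1
    rw [mul_inv_cancel, hy1, twAd_one] at h
    exact eq_neg_of_add_eq_zero_right h.symm
  have hρφτ : ρbar.ρ (φ * τ) = ρbar.ρ φ := by rw [map_mul, hρτ, mul_one]
  have hρφτinv : ρbar.ρ (φ * τ)⁻¹ = ρbar.ρ φ⁻¹ := by
    rw [mul_inv_rev, map_mul]
    have : ρbar.ρ τ⁻¹ = 1 := hur _ (inv_mem hτ)
    rw [this, one_mul]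
  have h1 := hrel φ hφD τ (hID τ hτ) hφ1
  rw [hyI τ hτ, mul_zero, zero_mul, mul_zero, map_zero, sub_zero] at h1
  have h2 := hrel (φ * τ) hφτD φ⁻¹ hφinvD hφτ1
  rw [hρφτ, hρφτinv, hYdef, hx.map_mul φ τ] at h2
  have h3 := hrel φ hφD φ⁻¹ hφinvD hφ1
  rw [mul_inv_cancel, hlam1, hYdef] at h3
  have hcomm := hx.commute_frobenius hq hP hp hpq hq1 hL hur hφ hτ
  have hconjx : ρbar.ρ φ * x τ * ρbar.ρ φ⁻¹ = x τ := by
    rw [hcomm, mul_assoc, rho_mul_inv, mul_one]
  rw [hconjx, h1, add_mul, map_add] at h2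
  rw [hA] at h2
  simp only [mul_neg, map_neg] at h2 h3
  linear_combination h3 - h2

end Fermat.Agent.S56.H554
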